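/-
S26lib / NMul / Yoneda  (helper3)  --  Project K (S26), part (P1a)

**From the group law on the functor of points to morphisms of schemes.**  For
`G : RelativeGroupLaw R f` (`f : A ⟶ Spec R`), by evaluating at the universal points:

* `idPt f : SchemeHomOver f f` (the identity of `A` as an `A`-point), `compPt x y`;
* `nsmulHom G n : A ⟶ A` with `nsmulHom_comp : nsmulHom G n ≫ f = f` and
  `comp_nsmulHom : x.1 ≫ nsmulHom G n = (G.nsmul t n x).1` for every `T`-point `x`;
* `oneHom G : Spec R ⟶ A` with `one_eq : (G.one t).1 = t ≫ oneHom G`;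
* `invHom G : A ⟶ A` with `comp_invHom`;
* `mulHom G : pullback f f ⟶ A` with `lift_mulHom`;
* `basePt t a` (the constant `T`-point of an `S`-point `a`), `transHom G a : A ⟶ A` (translation by an
  `S`-point `a`), `comp_transHom`, `transHom_transHom`, `transIso`;
* `isTorsionPoint_iff : G.IsTorsionPoint t n x ↔ x.1 ≫ nsmulHom G n = t ≫ oneHom G`;
* for a commutative law: `nsmul_mul`, `transHom_nsmulHom`.
-/
import Mathlib
import Fermat.Prelude.Def_JacJ1Iface
import Fermat.Prelude.Def_GoodReductionJacobian_RelativeGroupLawKernel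

set_option autoImplicit false

noncomputable section

universe u

namespace Fermat.Agent.S26lib.NMul

open CategoryTheory CategoryTheory.Limits AlgebraicGeometry NeronModelInfra GoodReductionJacobian

variable {R : Type u} [CommRing R] {A : Scheme.{u}} {f : A ⟶ Spec (CommRingCat.of R)}

local notation "S" => Spec (CommRingCat.of R)

/-! ### points -/

/-- the universal point: the identity of `A`, as an `A`-point -/
def idPt (f : A ⟶ S) : SchemeHomOver f f := ⟨𝟙 A, Category.id_comp f⟩

/-- composition of a `T`-point `x` of `A` with a point of `A` with values in ... `A`: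
the base change of points along `x.1` -/
def pullPt {T : Scheme.{u}} {t : T ⟶ S} (x : SchemeHomOver t f) (y : SchemeHomOver f f) :
    SchemeHomOver t f :=
  schemeHomOverComp x.1 x.2 y

theorem pullPt_idPt {T : Scheme.{u}} {t : T ⟶ S} (x : SchemeHomOver t f) :
    pullPt x (idPt f) = x :=
  Subtype.ext (Category.comp_id x.1)

/-- the constant `T`-point attached to an `S`-point -/
def basePt {T : Scheme.{u}} (t : T ⟶ S) (a : SchemeHomOver (𝟙 S) f) : SchemeHomOver t f :=
  schemeHomOverComp t (Category.comp_id t) a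

@[simp]
theorem basePt_coe {T : Scheme.{u}} (t : T ⟶ S) (a : SchemeHomOver (𝟙 S) f) :
    (basePt t a).1 = t ≫ a.1 := rfl

theorem basePt_id (a : SchemeHomOver (𝟙 S) f) : basePt (𝟙 S) a = a :=
  Subtype.ext (Category.id_comp a.1)

theorem comp_basePt {T T' : Scheme.{u}} (t : T ⟶ S) (t' : T' ⟶ S) (ψ : T' ⟶ T) (hψ : ψ ≫ t = t')
    (a : SchemeHomOver (𝟙 S) f) : schemeHomOverComp ψ hψ (basePt t a) = basePt t' a := by
  apply Subtype.ext
  show ψ ≫ t ≫ a.1 = t' ≫ a.1
  rw [← Category.assoc, hψ]

variable (G : RelativeGroupLaw R f)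

/-! ### naturality of the inverse -/

theorem inv_natural {T T' : Scheme.{u}} (t : T ⟶ S) (t' : T' ⟶ S) (ψ : T' ⟶ T) (hψ : ψ ≫ t = t')
    (x : SchemeHomOver t f) :
    schemeHomOverComp ψ hψ (G.inv t x) = G.inv t' (schemeHomOverComp ψ hψ x) := by
  let _ := G.pointGroup t'
  have h1 : G.mul t' (schemeHomOverComp ψ hψ (G.inv t x)) (schemeHomOverComp ψ hψ x) = G.one t' := by
    rw [← G.mul_natural t t' ψ hψ, G.inv_mul_cancel, G.one_natural t t' ψ hψ]
  exact eq_inv_of_mul_eq_one_left h1

/-! ### multiplication by `n` -/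

/-- **multiplication by `n` as a morphism of schemes** -/
def nsmulHom (n : ℕ) : A ⟶ A := (G.nsmul f n (idPt f)).1

theorem nsmulHom_eq_schemeNsmul (n : ℕ) : nsmulHom G n = G.schemeNsmul n := rfl

theorem nsmulHom_comp (n : ℕ) : nsmulHom G n ≫ f = f := (G.nsmul f n (idPt f)).2

/-- **`[n]` on `T`-points** -/
theorem comp_nsmulHom {T : Scheme.{u}} {t : T ⟶ S} (n : ℕ) (x : SchemeHomOver t f) :
    x.1 ≫ nsmulHom G n = (G.nsmul t n x).1 := by
  have h := G.nsmul_natural f t x.1 x.2 n (idPt f)
  have h' : schemeHomOverComp x.1 x.2 (idPt f) = x := pullPt_idPt x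
  rw [h'] at h
  rw [← h]
  rfl

/-! ### the unit section -/

/-- **the unit section** -/
def oneHom : S ⟶ A := (G.one (𝟙 S)).1

theorem oneHom_comp : oneHom G ≫ f = 𝟙 S := (G.one (𝟙 S)).2

/-- the unit section as an `S`-point -/
def onePt : SchemeHomOver (𝟙 S) f := G.one (𝟙 S)

theorem one_eq {T : Scheme.{u}} (t : T ⟶ S) : (G.one t).1 = t ≫ oneHom G := by
  have h := G.one_natural (𝟙 S) t t (Category.comp_id t)
  rw [← h]
  rfl

theorem one_eq_basePt {T : Scheme.{u}} (t : T ⟶ S) : G.one t = basePt t (onePt G) :=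
  Subtype.ext (one_eq G t)

/-- **torsion points are the points of the fibre of `[n]` over the unit section** -/
theorem isTorsionPoint_iff {T : Scheme.{u}} (t : T ⟶ S) (n : ℕ) (x : SchemeHomOver t f) :
    G.IsTorsionPoint t n x ↔ x.1 ≫ nsmulHom G n = t ≫ oneHom G := by
  rw [comp_nsmulHom, ← one_eq]
  exact ⟨fun h => congrArg Subtype.val h, fun h => Subtype.ext h⟩

/-! ### the inverse -/

/-- **the inverse as a morphism of schemes** -/
def invHom : A ⟶ A := (G.inv f (idPt f)).1

theorem invHom_comp : invHom G ≫ f = f := (G.inv f (idPt f)).2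

theorem comp_invHom {T : Scheme.{u}} {t : T ⟶ S} (x : SchemeHomOver t f) :
    x.1 ≫ invHom G = (G.inv t x).1 := by
  have h := inv_natural G f t x.1 x.2 (idPt f)
  have h' : schemeHomOverComp x.1 x.2 (idPt f) = x := pullPt_idPt x
  rw [h'] at h
  rw [← h]
  rfl

/-! ### the multiplication -/

/-- the first projection of `A ×_S A`, as a point -/
def fstPt (f : A ⟶ S) : SchemeHomOver (pullback.fst f f ≫ f) f := ⟨pullback.fst f f, rfl⟩

/-- the second projection of `A ×_S A`, as a point -/
def sndPt (f : A ⟶ S) : SchemeHomOver (pullback.fst f f ≫ f) f :=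
  ⟨pullback.snd f f, pullback.condition.symm⟩

/-- **the multiplication as a morphism of schemes** -/
def mulHom : pullback f f ⟶ A := (G.mul (pullback.fst f f ≫ f) (fstPt f) (sndPt f)).1

theorem mulHom_comp : mulHom G ≫ f = pullback.fst f f ≫ f :=
  (G.mul (pullback.fst f f ≫ f) (fstPt f) (sndPt f)).2

/-- **the multiplication on `T`-points** -/
theorem lift_mulHom {T : Scheme.{u}} {t : T ⟶ S} (x y : SchemeHomOver t f) :
    pullback.lift x.1 y.1 (x.2.trans y.2.symm) ≫ mulHom G = (G.mul t x y).1 := by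
  have hψ : pullback.lift x.1 y.1 (x.2.trans y.2.symm) ≫ (pullback.fst f f ≫ f) = t := by
    rw [← Category.assoc, pullback.lift_fst, x.2]
  have h := G.mul_natural (pullback.fst f f ≫ f) t
    (pullback.lift x.1 y.1 (x.2.trans y.2.symm)) hψ (fstPt f) (sndPt f)
  have h1 : schemeHomOverComp (pullback.lift x.1 y.1 (x.2.trans y.2.symm)) hψ (fstPt f) = x :=
    Subtype.ext (pullback.lift_fst _ _ _)
  have h2 : schemeHomOverComp (pullback.lift x.1 y.1 (x.2.trans y.2.symm)) hψ (sndPt f) = y :=
    Subtype.ext (pullback.lift_snd _ _ _)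
  rw [h1, h2] at h
  rw [← h]
  rfl

/-! ### translations -/

/-- **translation by an `S`-point `a`**: `x ↦ x * a` -/
def transHom (a : SchemeHomOver (𝟙 S) f) : A ⟶ A := (G.mul f (idPt f) (basePt f a)).1

theorem transHom_comp (a : SchemeHomOver (𝟙 S) f) : transHom G a ≫ f = f :=
  (G.mul f (idPt f) (basePt f a)).2

/-- **translations on `T`-points** -/
theorem comp_transHom {T : Scheme.{u}} {t : T ⟶ S} (a : SchemeHomOver (𝟙 S) f)
    (x : SchemeHomOver t f) : x.1 ≫ transHom G a = (G.mul t x (basePt t a)).1 := by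
  have h := G.mul_natural f t x.1 x.2 (idPt f) (basePt f a)
  have h1 : schemeHomOverComp x.1 x.2 (idPt f) = x := pullPt_idPt x
  rw [h1, comp_basePt f t x.1 x.2 a] at h
  rw [← h]
  rfl

/-- the constant points are compatible with the multiplication -/
theorem basePt_mul {T : Scheme.{u}} (t : T ⟶ S) (a b : SchemeHomOver (𝟙 S) f) :
    basePt t (G.mul (𝟙 S) a b) = G.mul t (basePt t a) (basePt t b) :=
  G.mul_natural (𝟙 S) t t (Category.comp_id t) a b

theorem basePt_inv {T : Scheme.{u}} (t : T ⟶ S) (a : SchemeHomOver (𝟙 S) f) :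
    basePt t (G.inv (𝟙 S) a) = G.inv t (basePt t a) :=
  inv_natural G (𝟙 S) t t (Category.comp_id t) a

theorem basePt_nsmul {T : Scheme.{u}} (t : T ⟶ S) (n : ℕ) (a : SchemeHomOver (𝟙 S) f) :
    basePt t (G.nsmul (𝟙 S) n a) = G.nsmul t n (basePt t a) :=
  G.nsmul_natural (𝟙 S) t t (Category.comp_id t) n a

theorem transHom_transHom (a b : SchemeHomOver (𝟙 S) f) :
    transHom G a ≫ transHom G b = transHom G (G.mul (𝟙 S) a b) := by
  have h := comp_transHom G b (G.mul f (idPt f) (basePt f a))
  show (G.mul f (idPt f) (basePt f a)).1 ≫ transHom G b = _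
  rw [h, G.mul_assoc, ← basePt_mul]
  rfl

theorem transHom_one : transHom G (onePt G) = 𝟙 A := by
  show (G.mul f (idPt f) (basePt f (onePt G))).1 = 𝟙 A
  rw [← one_eq_basePt, G.mul_one]
  rfl

/-- **translations are isomorphisms** -/
def transIso (a : SchemeHomOver (𝟙 S) f) : A ≅ A where
  hom := transHom G a
  inv := transHom G (G.inv (𝟙 S) a)
  hom_inv_id := by
    rw [transHom_transHom, RelativeGroupLaw.mul_inv_cancel]
    exact transHom_one G
  inv_hom_id := by
    rw [transHom_transHom, G.inv_mul_cancel]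
    exact transHom_one G

/-! ### the commutative case -/

section Comm

variable {G} (hc : G.IsCommutative)

include hc in
theorem nsmul_mul {T : Scheme.{u}} (t : T ⟶ S) (n : ℕ) (x y : SchemeHomOver t f) :
    G.nsmul t n (G.mul t x y) = G.mul t (G.nsmul t n x) (G.nsmul t n y) := by
  induction n with
  | zero => exact (G.one_mul t _).symm
  | succ n ih =>
    rw [RelativeGroupLaw.nsmul_succ, RelativeGroupLaw.nsmul_succ, RelativeGroupLaw.nsmul_succ, ih,
      G.mul_assoc, G.mul_assoc]
    congr 1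
    rw [← G.mul_assoc, ← G.mul_assoc, hc t (G.nsmul t n y) x]

include hc in
/-- **`[n] ∘ τ_a = τ_{na} ∘ [n]`** -/
theorem transHom_nsmulHom (n : ℕ) (a : SchemeHomOver (𝟙 S) f) :
    transHom G a ≫ nsmulHom G n = nsmulHom G n ≫ transHom G (G.nsmul (𝟙 S) n a) := by
  have h1 := comp_nsmulHom G n (G.mul f (idPt f) (basePt f a))
  have h2 := comp_transHom G (G.nsmul (𝟙 S) n a) (G.nsmul f n (idPt f))
  show (G.mul f (idPt f) (basePt f a)).1 ≫ nsmulHom G n =
    (G.nsmul f n (idPt f)).1 ≫ transHom G (G.nsmul (𝟙 S) n a)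
  rw [h1, h2, nsmul_mul hc, basePt_nsmul]

end Comm

end Fermat.Agent.S26lib.NMul
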