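/-
S26lib / NMul / LocalExt  (helper3)  --  Project K (S26)

**Extensionality for morphisms out of the spectrum of a local ring.**  If `R` is a local ring,
`q₁ : R ⟶ R₁` is a local homomorphism to a local ring, `q₂ : R ⟶ R₂` is any ring homomorphism, and
`q₁`, `q₂` are jointly injective, then two morphisms `a b : Spec R ⟶ X` to an arbitrary scheme
which agree after restriction along `Spec q₁` and `Spec q₂` are equal.
-/
import Mathlib

set_option autoImplicit false

universe u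

namespace Fermat.Agent.S26lib.NMul

open CategoryTheory AlgebraicGeometry IsLocalRing

/-- two ring homomorphisms into `R` which agree after composing with two jointly injective
homomorphisms are equal -/
theorem ringHom_ext_two {Γ R R₁ R₂ : CommRingCat.{u}} (q₁ : R ⟶ R₁) (q₂ : R ⟶ R₂)
    (hq : ∀ r : R, q₁.hom r = 0 → q₂.hom r = 0 → r = 0) (α β : Γ ⟶ R)
    (h₁ : α ≫ q₁ = β ≫ q₁) (h₂ : α ≫ q₂ = β ≫ q₂) : α = β := by
  ext s
  have e₁ : q₁.hom (α.hom s) = q₁.hom (β.hom s) := congrArg (fun φ : Γ ⟶ R₁ => φ.hom s) h₁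
  have e₂ : q₂.hom (α.hom s) = q₂.hom (β.hom s) := congrArg (fun φ : Γ ⟶ R₂ => φ.hom s) h₂
  have := hq (α.hom s - β.hom s) (by rw [map_sub, e₁, sub_self]) (by rw [map_sub, e₂, sub_self])
  exact sub_eq_zero.mp this

/-- the affine case -/
theorem spec_hom_ext_two_affine {Y : Scheme.{u}} [IsAffine Y] {R R₁ R₂ : CommRingCat.{u}}
    (q₁ : R ⟶ R₁) (q₂ : R ⟶ R₂) (hq : ∀ r : R, q₁.hom r = 0 → q₂.hom r = 0 → r = 0)
    (a b : Spec R ⟶ Y)
    (h₁ : Spec.map q₁ ≫ a = Spec.map q₁ ≫ b) (h₂ : Spec.map q₂ ≫ a = Spec.map q₂ ≫ b) :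
    a = b := by
  apply ext_of_isAffine
  have key : ∀ {R' : CommRingCat.{u}} (q : R ⟶ R'), Spec.map q ≫ a = Spec.map q ≫ b →
      (a.appTop ≫ (Scheme.ΓSpecIso R).hom) ≫ q = (b.appTop ≫ (Scheme.ΓSpecIso R).hom) ≫ q := by
    intro R' q h
    have h' := congrArg (fun φ : Spec R' ⟶ Y => φ.appTop) h
    simp only [Scheme.Hom.comp_appTop] at h'
    rw [Category.assoc, Category.assoc, ← Scheme.ΓSpecIso_naturality, ← Category.assoc,
      ← Category.assoc, h']
  have := ringHom_ext_two q₁ q₂ hq _ _ (key q₁ h₁) (key q₂ h₂)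
  exact (cancel_mono _).mp this

/-- **extensionality for morphisms out of the spectrum of a local ring** -/
theorem spec_hom_ext_two {X : Scheme.{u}} {R R₁ R₂ : CommRingCat.{u}} [IsLocalRing R]
    [IsLocalRing R₁] (q₁ : R ⟶ R₁) [IsLocalHom q₁.hom] (q₂ : R ⟶ R₂)
    (hq : ∀ r : R, q₁.hom r = 0 → q₂.hom r = 0 → r = 0) (a b : Spec R ⟶ X)
    (h₁ : Spec.map q₁ ≫ a = Spec.map q₁ ≫ b) (h₂ : Spec.map q₂ ≫ a = Spec.map q₂ ≫ b) :
    a = b := by
  -- the closed point has the same image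
  have hx : a (closedPoint R) = b (closedPoint R) := by
    have h : a (Spec.map q₁ (closedPoint R₁)) = b (Spec.map q₁ (closedPoint R₁)) :=
      congrArg (fun φ : Spec R₁ ⟶ X => φ (closedPoint R₁)) h₁
    rwa [Spec_closedPoint] at h
  -- an affine open neighbourhood of this image
  obtain ⟨U, hU, hxU⟩ : ∃ U : X.Opens, IsAffineOpen U ∧ a (closedPoint R) ∈ U := by
    obtain ⟨_, ⟨U, hU, rfl⟩, hxU, -⟩ :=
      X.isBasis_affineOpens.exists_subset_of_mem_open (Set.mem_univ (a (closedPoint R)))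
        isOpen_univ
    exact ⟨U, hU, hxU⟩
  have ha : a ⁻¹ᵁ U = ⊤ := Scheme.preimage_eq_top_of_closedPoint_mem a hxU
  have hb : b ⁻¹ᵁ U = ⊤ := Scheme.preimage_eq_top_of_closedPoint_mem b (hx ▸ hxU)
  have hra : Set.range a ⊆ Set.range U.ι := by
    rw [Scheme.Opens.range_ι]
    rintro _ ⟨y, rfl⟩
    have : y ∈ a ⁻¹ᵁ U := ha ▸ trivial
    exact this
  have hrb : Set.range b ⊆ Set.range U.ι := by
    rw [Scheme.Opens.range_ι]
    rintro _ ⟨y, rfl⟩
    have : y ∈ b ⁻¹ᵁ U := hb ▸ trivial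
    exact this
  have : IsAffine U := hU
  have e : IsOpenImmersion.lift U.ι a hra = IsOpenImmersion.lift U.ι b hrb := by
    apply spec_hom_ext_two_affine q₁ q₂ hq
    · rw [← cancel_mono U.ι, Category.assoc, Category.assoc, IsOpenImmersion.lift_fac,
        IsOpenImmersion.lift_fac, h₁]
    · rw [← cancel_mono U.ι, Category.assoc, Category.assoc, IsOpenImmersion.lift_fac,
        IsOpenImmersion.lift_fac, h₂]
  rw [← IsOpenImmersion.lift_fac U.ι a hra, ← IsOpenImmersion.lift_fac U.ι b hrb, e]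

end Fermat.Agent.S26lib.NMul
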