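/-
S26lib / NMul / Dual  (helper3)  --  Project K (S26)

**Points with values in trivial square-zero extensions, and the action of `[n]` on them.**

For a ring homomorphism `ρ : R →+* B` we consider the `B`-valued points
`PtsAt f ρ := SchemeHomOver (Spec.map (ofHom ρ)) f` of `f : A ⟶ Spec R` and their functoriality
`ptsMap φ hφ` in `B`.  For `ρ₀ : R →+* κ` with `κ` local and a `κ`-module `M` let
`B_M := TrivSqZeroExt κ M`; a `κ`-linear map `l : M → N` acts on `B_M`-points by `tanMap l`.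
By the Eckmann–Hilton argument, on the points `x` whose constant part `tanMap 0 x` is the unit,
`tanMap (l₁ + l₂) x = tanMap l₁ x * tanMap l₂ x`, hence `[n] x = tanMap (n • id) x`; so if `n` is
invertible in `κ` the map `[n]` is injective on the `B_M`-points with a given constant part
(`eq_of_nsmul_eq`).
-/
import Mathlib
import Fermat.Agent.S26lib.NMul.Yoneda
import Fermat.Agent.S26lib.NMul.LocalExt

set_option autoImplicit false

noncomputable section

universe u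

namespace Fermat.Agent.S26lib.NMul

open CategoryTheory AlgebraicGeometry NeronModelInfra GoodReductionJacobian

variable {R : Type u} [CommRing R] {A : Scheme.{u}} {f : A ⟶ Spec (CommRingCat.of R)}

/-! ### ring-valued points -/

section Pts

variable {B C D : Type u} [CommRing B] [CommRing C] [CommRing D]

/-- the points of `A` with values in the ring `B`, over a given `ρ : R →+* B` -/
abbrev PtsAt (f : A ⟶ Spec (CommRingCat.of R)) (ρ : R →+* B) : Type u :=
  SchemeHomOver (Spec.map (CommRingCat.ofHom ρ)) f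

theorem specMap_comp {ρ : R →+* B} {ρ' : R →+* C} (φ : B →+* C) (hφ : φ.comp ρ = ρ') :
    Spec.map (CommRingCat.ofHom φ) ≫ Spec.map (CommRingCat.ofHom ρ) =
      Spec.map (CommRingCat.ofHom ρ') := by
  rw [← Spec.map_comp, ← CommRingCat.ofHom_comp, hφ]

/-- functoriality of the `B`-valued points in `B` -/
def ptsMap {ρ : R →+* B} {ρ' : R →+* C} (φ : B →+* C) (hφ : φ.comp ρ = ρ') (x : PtsAt f ρ) :
    PtsAt f ρ' :=
  schemeHomOverComp (Spec.map (CommRingCat.ofHom φ)) (specMap_comp φ hφ) x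

@[simp]
theorem ptsMap_coe {ρ : R →+* B} {ρ' : R →+* C} (φ : B →+* C) (hφ : φ.comp ρ = ρ')
    (x : PtsAt f ρ) : (ptsMap φ hφ x).1 = Spec.map (CommRingCat.ofHom φ) ≫ x.1 := rfl

theorem ptsMap_congr {ρ : R →+* B} {ρ' : R →+* C} {φ φ' : B →+* C} (h : φ = φ')
    (hφ : φ.comp ρ = ρ') (hφ' : φ'.comp ρ = ρ') (x : PtsAt f ρ) :
    ptsMap φ hφ x = ptsMap φ' hφ' x := by
  subst h; rfl

theorem ptsMap_id {ρ : R →+* B} (x : PtsAt f ρ) :
    ptsMap (RingHom.id B) (RingHom.id_comp ρ) x = x := by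
  apply Subtype.ext
  rw [ptsMap_coe, CommRingCat.ofHom_id, Spec.map_id, Category.id_comp]

theorem ptsMap_ptsMap {ρ : R →+* B} {ρ' : R →+* C} {ρ'' : R →+* D} (φ : B →+* C)
    (hφ : φ.comp ρ = ρ') (ψ : C →+* D) (hψ : ψ.comp ρ' = ρ'') (x : PtsAt f ρ) :
    ptsMap ψ hψ (ptsMap φ hφ x) =
      ptsMap (ψ.comp φ) (by rw [RingHom.comp_assoc, hφ, hψ]) x := by
  apply Subtype.ext
  rw [ptsMap_coe, ptsMap_coe, ptsMap_coe, CommRingCat.ofHom_comp, Spec.map_comp, Category.assoc]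

variable (G : RelativeGroupLaw R f)

theorem ptsMap_mul {ρ : R →+* B} {ρ' : R →+* C} (φ : B →+* C) (hφ : φ.comp ρ = ρ')
    (x y : PtsAt f ρ) :
    ptsMap φ hφ (G.mul _ x y) = G.mul _ (ptsMap φ hφ x) (ptsMap φ hφ y) :=
  G.mul_natural _ _ _ _ x y

theorem ptsMap_one {ρ : R →+* B} {ρ' : R →+* C} (φ : B →+* C) (hφ : φ.comp ρ = ρ') :
    ptsMap φ hφ (G.one _ : PtsAt f ρ) = G.one _ :=
  G.one_natural _ _ _ _

theorem ptsMap_inv {ρ : R →+* B} {ρ' : R →+* C} (φ : B →+* C) (hφ : φ.comp ρ = ρ')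
    (x : PtsAt f ρ) : ptsMap φ hφ (G.inv _ x) = G.inv _ (ptsMap φ hφ x) :=
  inv_natural G _ _ _ _ x

theorem ptsMap_nsmul {ρ : R →+* B} {ρ' : R →+* C} (φ : B →+* C) (hφ : φ.comp ρ = ρ') (n : ℕ)
    (x : PtsAt f ρ) : ptsMap φ hφ (G.nsmul _ n x) = G.nsmul _ n (ptsMap φ hφ x) :=
  G.nsmul_natural _ _ _ _ n x

end Pts

/-! ### points with values in trivial square-zero extensions -/

section Tangent

variable {κ : Type u} [CommRing κ] (ρ₀ : R →+* κ)
variable (M : Type u) [AddCommGroup M] [Module κ M] [Module κᵐᵒᵖ M] [IsCentralScalar κ M]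
variable {N : Type u} [AddCommGroup N] [Module κ N] [Module κᵐᵒᵖ N] [IsCentralScalar κ N]
variable {P : Type u} [AddCommGroup P] [Module κ P] [Module κᵐᵒᵖ P] [IsCentralScalar κ P]

/-- the structure homomorphism of `TrivSqZeroExt κ M` over `R` -/
def tanStr : R →+* TrivSqZeroExt κ M := (TrivSqZeroExt.inlHom κ M).comp ρ₀

variable {M}

/-- the ring homomorphism `TrivSqZeroExt κ M →+* TrivSqZeroExt κ N` induced by a linear map -/
def tanHom (l : M →ₗ[κ] N) : TrivSqZeroExt κ M →+* TrivSqZeroExt κ N :=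
  (TrivSqZeroExt.map l).toRingHom

@[simp]
theorem tanHom_apply (l : M →ₗ[κ] N) (b : TrivSqZeroExt κ M) :
    tanHom l b = TrivSqZeroExt.map l b := rfl

theorem tanHom_comp_tanStr (l : M →ₗ[κ] N) : (tanHom l).comp (tanStr ρ₀ M) = tanStr ρ₀ N := by
  ext r
  · simp [tanStr]
  · simp [tanStr]

theorem tanHom_id : tanHom (LinearMap.id : M →ₗ[κ] M) = RingHom.id _ := by
  ext b
  · simp
  · simp

theorem tanHom_comp (l : M →ₗ[κ] N) (l' : N →ₗ[κ] P) :
    (tanHom l').comp (tanHom l) = tanHom (l' ∘ₗ l) := by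
  ext b
  · simp
  · simp

variable (f M) in
/-- the points of `A` with values in `TrivSqZeroExt κ M` -/
abbrev TanPts : Type u := PtsAt f (tanStr ρ₀ M)

/-- the action of linear maps on the points with values in trivial square-zero extensions -/
def tanMap (l : M →ₗ[κ] N) (x : TanPts f ρ₀ M) : TanPts f ρ₀ N :=
  ptsMap (tanHom l) (tanHom_comp_tanStr ρ₀ l) x

theorem tanMap_id (x : TanPts f ρ₀ M) : tanMap ρ₀ (LinearMap.id : M →ₗ[κ] M) x = x := by
  unfold tanMap
  rw [ptsMap_congr tanHom_id _ (RingHom.id_comp _), ptsMap_id]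

theorem tanMap_tanMap (l : M →ₗ[κ] N) (l' : N →ₗ[κ] P) (x : TanPts f ρ₀ M) :
    tanMap ρ₀ l' (tanMap ρ₀ l x) = tanMap ρ₀ (l' ∘ₗ l) x := by
  unfold tanMap
  rw [ptsMap_ptsMap]
  exact ptsMap_congr (tanHom_comp l l') _ _ x

variable (G : RelativeGroupLaw R f)

theorem tanMap_mul (l : M →ₗ[κ] N) (x y : TanPts f ρ₀ M) :
    tanMap ρ₀ l (G.mul _ x y) = G.mul _ (tanMap ρ₀ l x) (tanMap ρ₀ l y) :=
  ptsMap_mul G _ _ x y

theorem tanMap_one (l : M →ₗ[κ] N) : tanMap ρ₀ l (G.one _ : TanPts f ρ₀ M) = G.one _ :=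
  ptsMap_one G _ _

theorem tanMap_inv (l : M →ₗ[κ] N) (x : TanPts f ρ₀ M) :
    tanMap ρ₀ l (G.inv _ x) = G.inv _ (tanMap ρ₀ l x) :=
  ptsMap_inv G _ _ x

theorem tanMap_nsmul (l : M →ₗ[κ] N) (n : ℕ) (x : TanPts f ρ₀ M) :
    tanMap ρ₀ l (G.nsmul _ n x) = G.nsmul _ n (tanMap ρ₀ l x) :=
  ptsMap_nsmul G _ _ n x

/-! ### locality -/

variable (κ M) in
theorem isLocalRing_tsze [IsLocalRing κ] : IsLocalRing (TrivSqZeroExt κ M) := by
  have : Nontrivial (TrivSqZeroExt κ M) :=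
    ⟨⟨0, 1, fun h => zero_ne_one (congrArg TrivSqZeroExt.fst h)⟩⟩
  refine IsLocalRing.of_isUnit_or_isUnit_one_sub_self fun a => ?_
  rw [TrivSqZeroExt.isUnit_iff_isUnit_fst, TrivSqZeroExt.isUnit_iff_isUnit_fst]
  simpa using IsLocalRing.isUnit_or_isUnit_one_sub_self a.fst

theorem isLocalHom_tanHom (l : M →ₗ[κ] N) : IsLocalHom (tanHom l) := by
  refine ⟨fun a h => ?_⟩
  rw [TrivSqZeroExt.isUnit_iff_isUnit_fst] at h ⊢
  simpa using h

/-! ### Eckmann–Hilton -/

/-- the two projections `TrivSqZeroExt κ (M × M) → TrivSqZeroExt κ M` are jointly injective -/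
theorem tanHom_fst_snd_injective (r : TrivSqZeroExt κ (M × M))
    (h₁ : tanHom (LinearMap.fst κ M M) r = 0) (h₂ : tanHom (LinearMap.snd κ M M) r = 0) :
    r = 0 := by
  have a1 := congrArg TrivSqZeroExt.fst h₁
  have a2 := congrArg TrivSqZeroExt.snd h₁
  have a3 := congrArg TrivSqZeroExt.snd h₂
  simp only [tanHom_apply, TrivSqZeroExt.fst_map, TrivSqZeroExt.snd_map, TrivSqZeroExt.fst_zero,
    TrivSqZeroExt.snd_zero, LinearMap.fst_apply, LinearMap.snd_apply] at a1 a2 a3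
  exact TrivSqZeroExt.ext a1 (Prod.ext a2 a3)

/-- a point whose constant part is the unit has trivial image under every zero map -/
theorem tanMap_zero_of_lie (x : TanPts f ρ₀ M)
    (hx : tanMap ρ₀ (0 : M →ₗ[κ] M) x = G.one _) :
    tanMap ρ₀ (0 : M →ₗ[κ] N) x = G.one _ := by
  have h : (0 : M →ₗ[κ] N) = (0 : M →ₗ[κ] N) ∘ₗ (0 : M →ₗ[κ] M) := by simp
  rw [h, ← tanMap_tanMap, hx, tanMap_one]

/-- **Eckmann–Hilton**: on the points with trivial constant part, the group law is induced by the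
addition of linear maps -/
theorem tanMap_add [IsLocalRing κ] (x : TanPts f ρ₀ M)
    (hx : tanMap ρ₀ (0 : M →ₗ[κ] M) x = G.one _) (l₁ l₂ : M →ₗ[κ] N) :
    tanMap ρ₀ (l₁ + l₂) x = G.mul _ (tanMap ρ₀ l₁ x) (tanMap ρ₀ l₂ x) := by
  have hfst : tanMap ρ₀ (LinearMap.fst κ M M)
      (G.mul _ (tanMap ρ₀ (LinearMap.inl κ M M) x) (tanMap ρ₀ (LinearMap.inr κ M M) x)) =
      tanMap ρ₀ (LinearMap.fst κ M M)
        (tanMap ρ₀ (LinearMap.inl κ M M + LinearMap.inr κ M M) x) := by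
    rw [tanMap_mul, tanMap_tanMap, tanMap_tanMap, tanMap_tanMap, LinearMap.comp_add,
      LinearMap.fst_comp_inl, LinearMap.fst_comp_inr, add_zero, hx, G.mul_one]
  have hsnd : tanMap ρ₀ (LinearMap.snd κ M M)
      (G.mul _ (tanMap ρ₀ (LinearMap.inl κ M M) x) (tanMap ρ₀ (LinearMap.inr κ M M) x)) =
      tanMap ρ₀ (LinearMap.snd κ M M)
        (tanMap ρ₀ (LinearMap.inl κ M M + LinearMap.inr κ M M) x) := by
    rw [tanMap_mul, tanMap_tanMap, tanMap_tanMap, tanMap_tanMap, LinearMap.comp_add,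
      LinearMap.snd_comp_inl, LinearMap.snd_comp_inr, zero_add, hx, G.one_mul]
  have hPQ : G.mul _ (tanMap ρ₀ (LinearMap.inl κ M M) x) (tanMap ρ₀ (LinearMap.inr κ M M) x) =
      tanMap ρ₀ (LinearMap.inl κ M M + LinearMap.inr κ M M) x := by
    apply Subtype.ext
    have : IsLocalRing (TrivSqZeroExt κ (M × M)) := isLocalRing_tsze κ (M × M)
    have : IsLocalRing (TrivSqZeroExt κ M) := isLocalRing_tsze κ M
    have : IsLocalHom (CommRingCat.ofHom (tanHom (LinearMap.fst κ M M))).hom :=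
      isLocalHom_tanHom _
    exact spec_hom_ext_two (CommRingCat.ofHom (tanHom (LinearMap.fst κ M M)))
      (CommRingCat.ofHom (tanHom (LinearMap.snd κ M M))) tanHom_fst_snd_injective _ _
      (congrArg Subtype.val hfst) (congrArg Subtype.val hsnd)
  have h3 := congrArg (tanMap ρ₀ (LinearMap.coprod l₁ l₂)) hPQ
  rw [tanMap_mul, tanMap_tanMap, tanMap_tanMap, tanMap_tanMap, LinearMap.comp_add,
    LinearMap.coprod_inl, LinearMap.coprod_inr] at h3
  exact h3.symm

/-- **`[n]` acts as the linear map `n • id`** on the points with trivial constant part -/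
theorem tanMap_nsmul_id [IsLocalRing κ] (x : TanPts f ρ₀ M)
    (hx : tanMap ρ₀ (0 : M →ₗ[κ] M) x = G.one _) (n : ℕ) :
    tanMap ρ₀ (n • (LinearMap.id : M →ₗ[κ] M)) x = G.nsmul _ n x := by
  induction n with
  | zero => rw [zero_smul, hx]; rfl
  | succ n ih =>
    rw [succ_nsmul, tanMap_add ρ₀ G x hx, ih, tanMap_id]
    rfl

/-- if `n` is invertible in `κ`, a point with trivial constant part killed by `[n]` is trivial -/
theorem lie_eq_one_of_nsmul_eq_one [IsLocalRing κ] (n : ℕ) (hn : IsUnit (n : κ))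
    (x : TanPts f ρ₀ M) (hx : tanMap ρ₀ (0 : M →ₗ[κ] M) x = G.one _)
    (h : G.nsmul _ n x = G.one _) : x = G.one _ := by
  obtain ⟨c, hc⟩ := hn.exists_left_inv
  have e : (c • (LinearMap.id : M →ₗ[κ] M)) ∘ₗ (n • (LinearMap.id : M →ₗ[κ] M)) =
      LinearMap.id := by
    ext m
    simp only [LinearMap.coe_comp, Function.comp_apply, LinearMap.smul_apply, LinearMap.id_coe,
      id_eq]
    rw [← Nat.cast_smul_eq_nsmul κ n m, smul_smul, hc, one_smul]
  calc x = tanMap ρ₀ ((c • (LinearMap.id : M →ₗ[κ] M)) ∘ₗ (n • (LinearMap.id : M →ₗ[κ] M))) x := by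
        rw [e, tanMap_id]
    _ = tanMap ρ₀ (c • (LinearMap.id : M →ₗ[κ] M)) (G.nsmul _ n x) := by
        rw [← tanMap_tanMap, tanMap_nsmul_id ρ₀ G x hx]
    _ = G.one _ := by rw [h, tanMap_one]

/-- **`[n]` is injective on the points with values in `TrivSqZeroExt κ M` with a given constant
part**, for a commutative group law and `n` invertible in the local ring `κ` -/
theorem eq_of_nsmul_eq [IsLocalRing κ] (hc : G.IsCommutative) (n : ℕ) (hn : IsUnit (n : κ))
    (x y : TanPts f ρ₀ M)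
    (h0 : tanMap ρ₀ (0 : M →ₗ[κ] M) x = tanMap ρ₀ (0 : M →ₗ[κ] M) y)
    (h : G.nsmul _ n x = G.nsmul _ n y) : x = y := by
  have hz : G.mul _ x (G.inv _ y) = G.one _ := by
    apply lie_eq_one_of_nsmul_eq_one ρ₀ G n hn
    · rw [tanMap_mul, tanMap_inv, h0, RelativeGroupLaw.mul_inv_cancel]
    · rw [nsmul_mul hc, h, ← nsmul_mul hc, RelativeGroupLaw.mul_inv_cancel, G.nsmul_unit]
  calc x = G.mul _ x (G.one _) := (G.mul_one _ x).symm
    _ = G.mul _ x (G.mul _ (G.inv _ y) y) := by rw [G.inv_mul_cancel]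
    _ = G.mul _ (G.mul _ x (G.inv _ y)) y := (G.mul_assoc _ _ _ _).symm
    _ = y := by rw [hz, G.one_mul]

end Tangent

end Fermat.Agent.S26lib.NMul
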