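/-
S26lib / NMul / Unram  (helper3)  --  Project K (S26)

**`[n]` is formally unramified** for a commutative group law on a scheme locally of finite type over
a ring `R` in which `n` is invertible.
-/
import Mathlib
import Fermat.Agent.S26lib.NMul.Dual

set_option autoImplicit false

noncomputable section

universe u

namespace Fermat.Agent.S26lib.NMul

open CategoryTheory AlgebraicGeometry NeronModelInfra GoodReductionJacobian

/-! ### ring homomorphisms into dual numbers -/

section DualHom

variable {T κ : Type*} [CommRing T] [CommRing κ]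

/-- the ring homomorphism `T →+* κ[ε]`, `t ↦ χ t + D t ε`, attached to a ring homomorphism `χ` and a
`χ`-derivation `D` -/
def dualHom (χ : T →+* κ) (D : T →+ κ) (hD : ∀ a b, D (a * b) = χ a * D b + χ b * D a) :
    T →+* TrivSqZeroExt κ κ where
  toFun t := TrivSqZeroExt.inl (χ t) + TrivSqZeroExt.inr (D t)
  map_one' := by
    have h1 : D 1 = 0 := by
      have := hD 1 1
      simpa using this
    ext <;> simp [h1]
  map_mul' a b := by
    ext
    · simp
    · simp [hD, mul_comm, add_comm]
  map_zero' := by ext <;> simp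
  map_add' a b := by
    ext
    · simp
    · simp

@[simp]
theorem fst_dualHom (χ : T →+* κ) (D : T →+ κ) (hD) (t : T) :
    (dualHom χ D hD t).fst = χ t := by
  simp [dualHom]

@[simp]
theorem snd_dualHom (χ : T →+* κ) (D : T →+ κ) (hD) (t : T) :
    (dualHom χ D hD t).snd = D t := by
  simp [dualHom]

end DualHom

/-! ### points of affine opens -/

section Geom

variable {R : Type u} [CommRing R] {A : Scheme.{u}} {f : A ⟶ Spec (CommRingCat.of R)}

/-- the structure homomorphism `R → Γ(A, V)` of an affine open `V` of `A` -/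
def strHom (f : A ⟶ Spec (CommRingCat.of R)) {V : A.Opens} (hV : IsAffineOpen V) :
    CommRingCat.of R ⟶ Γ(A, V) :=
  Spec.preimage (hV.fromSpec ≫ f)

theorem specMap_strHom {V : A.Opens} (hV : IsAffineOpen V) :
    Spec.map (strHom f hV) = hV.fromSpec ≫ f :=
  Spec.map_preimage _

/-- the structure homomorphisms are compatible with morphisms over `Spec R` -/
theorem strHom_comp_appLE (ν : A ⟶ A) (hν : ν ≫ f = f) {U V : A.Opens} (hU : IsAffineOpen U)
    (hV : IsAffineOpen V) (e : V ≤ ν ⁻¹ᵁ U) : strHom f hU ≫ ν.appLE U V e = strHom f hV := by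
  apply Spec.map_injective
  rw [Spec.map_comp, specMap_strHom, specMap_strHom, ← Category.assoc,
    hU.SpecMap_appLE_fromSpec ν hV e, Category.assoc, hν]

variable {B C : Type u} [CommRing B] [CommRing C]

/-- a `B`-valued point of an affine open `V` of `A`, as a point of `A` -/
def affPt {V : A.Opens} (hV : IsAffineOpen V) (φ : Γ(A, V) →+* B) (ρ : R →+* B)
    (h : φ.comp (strHom f hV).hom = ρ) : PtsAt f ρ :=
  ⟨Spec.map (CommRingCat.ofHom φ) ≫ hV.fromSpec, by
    subst h
    rw [Category.assoc, ← specMap_strHom, ← Spec.map_comp]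
    rfl⟩

@[simp]
theorem affPt_coe {V : A.Opens} (hV : IsAffineOpen V) (φ : Γ(A, V) →+* B) (ρ : R →+* B)
    (h : φ.comp (strHom f hV).hom = ρ) :
    (affPt hV φ ρ h).1 = Spec.map (CommRingCat.ofHom φ) ≫ hV.fromSpec := rfl

theorem affPt_injective {V : A.Opens} (hV : IsAffineOpen V) (φ ψ : Γ(A, V) →+* B) (ρ : R →+* B)
    (h : φ.comp (strHom f hV).hom = ρ) (h' : ψ.comp (strHom f hV).hom = ρ)
    (e : affPt hV φ ρ h = affPt hV ψ ρ h') : φ = ψ := by
  have e' := congrArg Subtype.val e
  rw [affPt_coe, affPt_coe, cancel_mono, Spec.map_inj] at e'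
  exact congrArg CommRingCat.Hom.hom e'

theorem ptsMap_affPt {V : A.Opens} (hV : IsAffineOpen V) (φ : Γ(A, V) →+* B) (ρ : R →+* B)
    (h : φ.comp (strHom f hV).hom = ρ) (ψ : B →+* C) (ρ' : R →+* C) (hψ : ψ.comp ρ = ρ') :
    ptsMap ψ hψ (affPt hV φ ρ h) =
      affPt hV (ψ.comp φ) ρ' (by rw [RingHom.comp_assoc, h, hψ]) := by
  apply Subtype.ext
  rw [ptsMap_coe, affPt_coe, affPt_coe, CommRingCat.ofHom_comp, Spec.map_comp, Category.assoc]

variable (G : RelativeGroupLaw R f)

theorem nsmul_affPt (n : ℕ) {U V : A.Opens} (hU : IsAffineOpen U) (hV : IsAffineOpen V)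
    (e : V ≤ (nsmulHom G n) ⁻¹ᵁ U) (φ : Γ(A, V) →+* B) (ρ : R →+* B)
    (h : φ.comp (strHom f hV).hom = ρ) :
    (G.nsmul _ n (affPt hV φ ρ h)).1 =
      Spec.map (CommRingCat.ofHom (φ.comp ((nsmulHom G n).appLE U V e).hom)) ≫ hU.fromSpec := by
  rw [← comp_nsmulHom, affPt_coe, Category.assoc, ← hU.SpecMap_appLE_fromSpec _ hV e,
    ← Category.assoc, ← Spec.map_comp]
  rfl

/-- **the tangent map of `[n]` is injective**: a derivation `D : Γ(A, V) → κ` over a point
`χ : Γ(A, V) → κ` with values in a local ring `κ`, which kills the image of `Γ(A, U)` under `[n]`,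
vanishes (`n` invertible in `R`, commutative group law) -/
theorem derivation_eq_zero (hc : G.IsCommutative) (n : ℕ) (hn : IsUnit (n : R)) {U V : A.Opens}
    (hU : IsAffineOpen U) (hV : IsAffineOpen V) (e : V ≤ (nsmulHom G n) ⁻¹ᵁ U)
    {κ : Type u} [CommRing κ] [IsLocalRing κ] (χ : Γ(A, V) →+* κ) (D : Γ(A, V) →+ κ)
    (hD : ∀ a b, D (a * b) = χ a * D b + χ b * D a)
    (hβ : ∀ s, D (((nsmulHom G n).appLE U V e).hom s) = 0) : D = 0 := by
  have hD0 : ∀ a b : Γ(A, V), (0 : Γ(A, V) →+ κ) (a * b) =
      χ a * (0 : Γ(A, V) →+ κ) b + χ b * (0 : Γ(A, V) →+ κ) a := by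
    intro a b; simp
  have hDα : ∀ r, D ((strHom f hV).hom r) = 0 := by
    intro r
    rw [← strHom_comp_appLE (nsmulHom G n) (nsmulHom_comp G n) hU hV e]
    exact hβ _
  have h1 : (dualHom χ D hD).comp (strHom f hV).hom = tanStr (χ.comp (strHom f hV).hom) κ := by
    ext r
    · simp [tanStr]
    · simp [tanStr, hDα]
  have h0 : (dualHom χ 0 hD0).comp (strHom f hV).hom = tanStr (χ.comp (strHom f hV).hom) κ := by
    ext r
    · simp [tanStr]
    · simp [tanStr]
  have hnκ : IsUnit (n : κ) := by
    have := hn.map (χ.comp (strHom f hV).hom)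
    rwa [map_natCast] at this
  have key : affPt hV (dualHom χ D hD) _ h1 = affPt hV (dualHom χ 0 hD0) _ h0 := by
    apply eq_of_nsmul_eq (χ.comp (strHom f hV).hom) G hc n hnκ
    · unfold tanMap
      rw [ptsMap_affPt, ptsMap_affPt]
      congr 1
    · apply Subtype.ext
      rw [nsmul_affPt G n hU hV e, nsmul_affPt G n hU hV e]
      congr 3
      ext s
      · simp
      · simp [hβ]
  have h2 := affPt_injective hV _ _ _ h1 h0 key
  ext t
  have h3 := congrArg (fun φ : Γ(A, V) →+* TrivSqZeroExt κ κ => (φ t).snd) h2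
  simpa using h3

end Geom

/-! ### an unramifiedness criterion by derivations into residue fields -/

section Alg

variable {S T : Type u} [CommRing S] [CommRing T] [Algebra S T]

/-- a finitely generated module all of whose linear maps to the residue fields at maximal ideals
vanish is trivial -/
theorem subsingleton_of_linearMap_eq_zero (M : Type u) [AddCommGroup M] [Module T M]
    [Module.Finite T M]
    (H : ∀ (m : Ideal T) [m.IsMaximal] (L : M →ₗ[T] (T ⧸ m)), L = 0) : Subsingleton M := by
  by_contra hne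
  rw [not_subsingleton_iff_nontrivial] at hne
  have hann : Module.annihilator T M ≠ ⊤ := by
    intro h
    obtain ⟨x, hx⟩ := exists_ne (0 : M)
    have h1 : (1 : T) ∈ Module.annihilator T M := h ▸ Submodule.mem_top
    exact hx (by simpa using Module.mem_annihilator.mp h1 x)
  obtain ⟨m, hm, hle⟩ := Ideal.exists_le_maximal _ hann
  have hmtop : m • (⊤ : Submodule T M) ≠ ⊤ := by
    intro htop
    obtain ⟨r, hr1, hr2⟩ := Submodule.exists_sub_one_mem_and_smul_eq_zero_of_fg_of_le_smul m
      (⊤ : Submodule T M) (Module.finite_def.mp inferInstance) (by rw [htop])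
    have h1 : r ∈ Module.annihilator T M := Module.mem_annihilator.mpr fun x => hr2 x trivial
    have h2 : (1 : T) ∈ m := by
      have := m.sub_mem (hle h1) hr1
      simpa using this
    exact hm.ne_top ((Ideal.eq_top_iff_one _).mpr h2)
  -- a nonzero element of the quotient, and a functional not vanishing on it
  obtain ⟨ω, hω⟩ : ∃ ω : M, ω ∉ m • (⊤ : Submodule T M) := by
    by_contra h
    exact hmtop (eq_top_iff.mpr fun x _ => not_not.mp fun hx => h ⟨x, hx⟩)
  let _ : Field (T ⧸ m) := Ideal.Quotient.field m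
  have hq : (Submodule.Quotient.mk ω : M ⧸ m • (⊤ : Submodule T M)) ≠ 0 := by
    rwa [Ne, Submodule.Quotient.mk_eq_zero]
  obtain ⟨φ, hφ⟩ := Module.Projective.exists_dual_ne_zero (T ⧸ m) hq
  let L : M →ₗ[T] (T ⧸ m) :=
    { toFun := fun x => φ (Submodule.Quotient.mk x)
      map_add' := fun x y => by rw [Submodule.Quotient.mk_add, map_add]
      map_smul' := fun t x => by
        rw [RingHom.id_apply, ← Module.Quotient.mk_smul_mk, map_smul, Algebra.smul_def]
        rfl }
  have hL := H m L
  exact hφ (by simpa [L] using LinearMap.congr_fun hL ω)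

/-- **an unramifiedness criterion**: a finite type algebra all of whose derivations into the
residue fields at maximal ideals vanish is formally unramified -/
theorem formallyUnramified_of_derivation_eq_zero [Algebra.FiniteType S T]
    (H : ∀ (m : Ideal T) [m.IsMaximal] (D : Derivation S T (T ⧸ m)), D = 0) :
    Algebra.FormallyUnramified S T := by
  refine ⟨subsingleton_of_linearMap_eq_zero (T := T) (KaehlerDifferential S T) fun m _ L => ?_⟩
  have h := H m (L.compDer (KaehlerDifferential.D S T))
  apply (KaehlerDifferential.linearMapEquivDerivation S T).injective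
  rw [map_zero]
  exact h

end Alg

/-! ### `[n]` is formally unramified -/

section Main

variable {R : Type u} [CommRing R] {A : Scheme.{u}} {f : A ⟶ Spec (CommRingCat.of R)}
  (G : RelativeGroupLaw R f)

theorem locallyOfFiniteType_nsmulHom [LocallyOfFiniteType f] (n : ℕ) :
    LocallyOfFiniteType (nsmulHom G n) := by
  have : LocallyOfFiniteType (nsmulHom G n ≫ f) := by
    rw [nsmulHom_comp]; infer_instance
  exact locallyOfFiniteType_of_comp (nsmulHom G n) f

/-- **`[n]` is formally unramified** (ring level) -/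
theorem formallyUnramified_appLE_nsmulHom [LocallyOfFiniteType f] (hc : G.IsCommutative) (n : ℕ)
    (hn : IsUnit (n : R)) {U V : A.Opens} (hU : IsAffineOpen U) (hV : IsAffineOpen V)
    (e : V ≤ (nsmulHom G n) ⁻¹ᵁ U) :
    ((nsmulHom G n).appLE U V e).hom.FormallyUnramified := by
  have := locallyOfFiniteType_nsmulHom G n
  have hft : ((nsmulHom G n).appLE U V e).hom.FiniteType :=
    (nsmulHom G n).finiteType_appLE hU hV e
  algebraize [((nsmulHom G n).appLE U V e).hom]
  refine formallyUnramified_of_derivation_eq_zero fun m _ D => ?_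
  let _ : Field (Γ(A, V) ⧸ m) := Ideal.Quotient.field m
  have h := derivation_eq_zero G hc n hn hU hV e (Ideal.Quotient.mk m)
    (D : Γ(A, V) →ₗ[Γ(A, U)] (Γ(A, V) ⧸ m)).toAddMonoidHom
    (fun a b => by
      simp only [LinearMap.toAddMonoidHom_coe, Derivation.coeFn_coe, Derivation.leibniz,
        Algebra.smul_def]
      rfl)
    (fun s => by
      simp only [LinearMap.toAddMonoidHom_coe, Derivation.coeFn_coe]
      exact D.map_algebraMap s)
  ext t
  exact DFunLike.congr_fun h t

/-- **`[n]` is formally unramified** -/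
theorem formallyUnramified_nsmulHom [LocallyOfFiniteType f] (hc : G.IsCommutative) (n : ℕ)
    (hn : IsUnit (n : R)) : FormallyUnramified (nsmulHom G n) :=
  ⟨fun hU _ hV e => formallyUnramified_appLE_nsmulHom G hc n hn hU hV e⟩

end Main

end Fermat.Agent.S26lib.NMul
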