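/-
S26lib / NMul / Etale  (helper3)  --  Project K (S26)

**`[n]` is étale** for a commutative group law on a scheme smooth of relative dimension `g` over a
ring `R` in which `n` is invertible.

* `etale_of_formallyUnramified_of_free`: Jacobi–Zariski.  For `R₀ → S → T` with `T` formally smooth
  over `R₀`, `Ω[S/R₀]` and `Ω[T/R₀]` free of the same finite rank, `T` formally unramified and
  finitely presented over `S`: `T` is étale over `S`.
* `etale_nsmulHom`, `etale_schemeNsmul`.
-/
import Mathlib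
import Fermat.Agent.S26lib.NMul.Unram

set_option autoImplicit false

noncomputable section

universe u

namespace Fermat.Agent.S26lib.NMul

open CategoryTheory AlgebraicGeometry NeronModelInfra GoodReductionJacobian

/-! ### Jacobi–Zariski -/

section Alg

open scoped TensorProduct
open KaehlerDifferential

variable (R₀ S T : Type u) [CommRing R₀] [CommRing S] [CommRing T] [Algebra R₀ S] [Algebra R₀ T]
  [Algebra S T] [IsScalarTower R₀ S T]

/-- if `T` is formally unramified over `S`, the map `T ⊗[S] Ω[S/R₀] → Ω[T/R₀]` is surjective -/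
theorem mapBaseChange_surjective_of_formallyUnramified [Algebra.FormallyUnramified S T] :
    Function.Surjective (mapBaseChange R₀ S T) := by
  intro x
  have h : KaehlerDifferential.map R₀ S T T x = 0 := Subsingleton.elim _ _
  exact (exact_mapBaseChange_map R₀ S T x).mp h

/-- **Jacobi–Zariski**: if `T` is formally smooth over `R₀` and `T ⊗[S] Ω[S/R₀] → Ω[T/R₀]` is
injective then `H¹(L_{T/S}) = 0` -/
theorem subsingleton_h1Cotangent_of_injective [Algebra.FormallySmooth R₀ T]
    (h : Function.Injective (mapBaseChange R₀ S T)) :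
    Subsingleton (Algebra.H1Cotangent S T) := by
  refine subsingleton_of_forall_eq 0 fun x => ?_
  have h1 : mapBaseChange R₀ S T (Algebra.H1Cotangent.δ R₀ S T x) = 0 :=
    (Algebra.H1Cotangent.exact_δ_mapBaseChange R₀ S T _).mpr ⟨x, rfl⟩
  have h2 : Algebra.H1Cotangent.δ R₀ S T x = 0 := h (by rw [h1, map_zero])
  obtain ⟨y, rfl⟩ := (Algebra.H1Cotangent.exact_map_δ R₀ S T x).mp h2
  rw [Subsingleton.elim y 0, map_zero]

/-- **Jacobi–Zariski criterion for étaleness** -/
theorem etale_of_formallyUnramified_of_free [Nontrivial T] [Algebra.FormallySmooth R₀ T]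
    [Module.Free S Ω[S⁄R₀]] [Module.Finite S Ω[S⁄R₀]] [Module.Free T Ω[T⁄R₀]]
    [Module.Finite T Ω[T⁄R₀]] (hrk : Module.finrank S Ω[S⁄R₀] = Module.finrank T Ω[T⁄R₀])
    [Algebra.FormallyUnramified S T] [Algebra.FinitePresentation S T] : Algebra.Etale S T := by
  have hsurj := mapBaseChange_surjective_of_formallyUnramified R₀ S T
  have : Nontrivial S := (algebraMap S T).domain_nontrivial
  have hfr : Module.finrank T (T ⊗[S] Ω[S⁄R₀]) = Module.finrank T Ω[T⁄R₀] := by
    rw [Module.finrank_baseChange, hrk]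
  obtain ⟨i⟩ := FiniteDimensional.nonempty_linearEquiv_of_finrank_eq hfr
  have hinj : Function.Injective (mapBaseChange R₀ S T) :=
    OrzechProperty.injective_of_surjective_of_injective i.toLinearMap _ i.injective hsurj
  have h1 := subsingleton_h1Cotangent_of_injective R₀ S T hinj
  have hsm : Algebra.FormallySmooth S T := ⟨inferInstance, h1⟩
  have : Algebra.FormallyEtale S T := .of_formallyUnramified_and_formallySmooth
  exact ⟨inferInstance, inferInstance⟩

end Alg

/-! ### standard smooth charts -/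

section Chart

open RingHom

variable {X Y : Scheme.{u}} (f : X ⟶ Y)

/-- standard smooth charts of a given relative dimension around a point, inside a given open, over a
fixed affine open of the target -/
theorem exists_isStandardSmoothOfRelativeDimension_le (g : ℕ) [SmoothOfRelativeDimension g f]
    {U : Y.Opens} (hU : IsAffineOpen U) (x : X) (W : X.Opens) (hxW : x ∈ W) (hW : W ≤ f ⁻¹ᵁ U) :
    ∃ (V : X.Opens) (_ : IsAffineOpen V) (_ : x ∈ V) (hVW : V ≤ W),
      (f.appLE U V (hVW.trans hW)).hom.IsStandardSmoothOfRelativeDimension g := by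
  obtain ⟨_, ⟨V₁, hV₁, rfl⟩, hxV₁, hV₁W⟩ :=
    X.isBasis_affineOpens.exists_subset_of_mem_open hxW W.isOpen
  have hV₁W' : V₁ ≤ W := hV₁W
  have h := HasRingHomProperty.appLE (P := @SmoothOfRelativeDimension g) f inferInstance ⟨U, hU⟩
    ⟨V₁, hV₁⟩ (hV₁W'.trans hW)
  rw [locally_iff_isLocalization isStandardSmoothOfRelativeDimension_respectsIso] at h
  obtain ⟨s, hs, hfs⟩ := h
  have hs' := iSup_basicOpen_of_span_eq_top V₁ (s : Set Γ(X, V₁)) hs
  have hx' : x ∈ (⨆ i ∈ (s : Set Γ(X, V₁)), X.basicOpen i) := hs'.symm ▸ hxV₁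
  obtain ⟨r, hr, hxr⟩ : ∃ r ∈ s, x ∈ X.basicOpen r := by simpa using hx'
  refine ⟨X.basicOpen r, hV₁.basicOpen r, hxr, (X.basicOpen_le r).trans hV₁W', ?_⟩
  rw [← f.appLE_map (hV₁W'.trans hW) (homOfLE (X.basicOpen_le r)).op]
  have : IsLocalization.Away r Γ(X, X.basicOpen r) := hV₁.isLocalization_basicOpen r
  exact hfs r hr _

end Chart

/-! ### `[n]` is étale -/

section Main

variable {R : Type u} [CommRing R] {A : Scheme.{u}} {f : A ⟶ Spec (CommRingCat.of R)}
  (G : RelativeGroupLaw R f)

theorem le_preimage_top {X Y : Scheme.{u}} (φ : X ⟶ Y) (V : X.Opens) : V ≤ φ ⁻¹ᵁ ⊤ :=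
  fun _ _ => trivial

theorem appLE_congr_hom {X Y : Scheme.{u}} {φ ψ : X ⟶ Y} (h : φ = ψ) {U : Y.Opens} {V : X.Opens}
    (e : V ≤ φ ⁻¹ᵁ U) : φ.appLE U V e = ψ.appLE U V (h ▸ e) := by
  subst h; rfl

/-- **`[n]` is étale on adapted charts** (ring level) -/
theorem etale_appLE_nsmulHom (hc : G.IsCommutative) (g : ℕ) [SmoothOfRelativeDimension g f]
    (n : ℕ) (hn : IsUnit (n : R)) {U V : A.Opens} (hU : IsAffineOpen U) (hV : IsAffineOpen V)
    (e : V ≤ (nsmulHom G n) ⁻¹ᵁ U) [Nonempty V]
    (hSU : (f.appLE ⊤ U (le_preimage_top f U)).hom.IsStandardSmoothOfRelativeDimension g)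
    (hSV : (f.appLE ⊤ V (le_preimage_top f V)).hom.IsStandardSmoothOfRelativeDimension g) :
    ((nsmulHom G n).appLE U V e).hom.Etale := by
  have hcomp : f.appLE ⊤ U (le_preimage_top f U) ≫ (nsmulHom G n).appLE U V e = f.appLE ⊤ V (le_preimage_top f V) := by
    rw [Scheme.Hom.appLE_comp_appLE]
    exact appLE_congr_hom (nsmulHom_comp G n) _
  have : Smooth f := SmoothOfRelativeDimension.smooth g f
  have hunr := formallyUnramified_appLE_nsmulHom G hc n hn hU hV e
  have hfpV : (f.appLE ⊤ V (le_preimage_top f V)).hom.FinitePresentation :=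
    f.finitePresentation_appLE (isAffineOpen_top _) hV (le_preimage_top f V)
  have hftU : (f.appLE ⊤ U (le_preimage_top f U)).hom.FiniteType :=
    f.finiteType_appLE (isAffineOpen_top _) hU (le_preimage_top f U)
  let _ : Algebra Γ(Spec (CommRingCat.of R), ⊤) Γ(A, U) := (f.appLE ⊤ U (le_preimage_top f U)).hom.toAlgebra
  let _ : Algebra Γ(Spec (CommRingCat.of R), ⊤) Γ(A, V) := (f.appLE ⊤ V (le_preimage_top f V)).hom.toAlgebra
  let _ : Algebra Γ(A, U) Γ(A, V) := ((nsmulHom G n).appLE U V e).hom.toAlgebra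
  have : IsScalarTower Γ(Spec (CommRingCat.of R), ⊤) Γ(A, U) Γ(A, V) :=
    IsScalarTower.of_algebraMap_eq' (by
      simp only [RingHom.algebraMap_toAlgebra]
      rw [← hcomp]
      rfl)
  have : Algebra.IsStandardSmoothOfRelativeDimension g Γ(Spec (CommRingCat.of R), ⊤) Γ(A, U) := hSU
  have : Algebra.IsStandardSmoothOfRelativeDimension g Γ(Spec (CommRingCat.of R), ⊤) Γ(A, V) := hSV
  have : Algebra.IsStandardSmooth Γ(Spec (CommRingCat.of R), ⊤) Γ(A, U) :=
    Algebra.IsStandardSmoothOfRelativeDimension.isStandardSmooth g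
  have : Algebra.IsStandardSmooth Γ(Spec (CommRingCat.of R), ⊤) Γ(A, V) :=
    Algebra.IsStandardSmoothOfRelativeDimension.isStandardSmooth g
  have : Algebra.FormallyUnramified Γ(A, U) Γ(A, V) := hunr
  have : Algebra.FinitePresentation Γ(Spec (CommRingCat.of R), ⊤) Γ(A, V) := hfpV
  have : Algebra.FiniteType Γ(Spec (CommRingCat.of R), ⊤) Γ(A, U) := hftU
  have : Algebra.FinitePresentation Γ(A, U) Γ(A, V) :=
    Algebra.FinitePresentation.of_restrict_scalars_finitePresentation
      Γ(Spec (CommRingCat.of R), ⊤) _ _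
  have : Nontrivial Γ(A, V) := inferInstance
  have : Nontrivial Γ(A, U) := (algebraMap Γ(A, U) Γ(A, V)).domain_nontrivial
  have hrk : Module.finrank Γ(A, U) Ω[Γ(A, U)⁄Γ(Spec (CommRingCat.of R), ⊤)] =
      Module.finrank Γ(A, V) Ω[Γ(A, V)⁄Γ(Spec (CommRingCat.of R), ⊤)] := by
    unfold Module.finrank
    rw [Algebra.IsStandardSmoothOfRelativeDimension.rank_kaehlerDifferential g,
      Algebra.IsStandardSmoothOfRelativeDimension.rank_kaehlerDifferential g]
  exact etale_of_formallyUnramified_of_free Γ(Spec (CommRingCat.of R), ⊤) Γ(A, U) Γ(A, V) hrk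

theorem etale_stableUnderCompositionWithLocalizationAwaySource :
    RingHom.StableUnderCompositionWithLocalizationAwaySource RingHom.Etale := by
  intro R₁ S₁ T₁ _ _ _ _ r _ φ hφ
  refine RingHom.Etale.stableUnderComposition _ _ ?_ hφ
  show (algebraMap R₁ S₁).Etale
  rw [RingHom.etale_algebraMap]
  exact Algebra.Etale.of_isLocalizationAway r

/-- **`[n]` is étale** for a commutative group law on a scheme smooth of relative dimension `g` over
a ring in which `n` is invertible -/
theorem etale_nsmulHom (hc : G.IsCommutative) (g : ℕ) [SmoothOfRelativeDimension g f] (n : ℕ)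
    (hn : IsUnit (n : R)) : Etale (nsmulHom G n) := by
  rw [HasRingHomProperty.iff_exists_appLE (P := @Etale)
    etale_stableUnderCompositionWithLocalizationAwaySource]
  intro x
  obtain ⟨U, hU, hyU, _, hSU⟩ := exists_isStandardSmoothOfRelativeDimension_le f g
    (isAffineOpen_top _) (nsmulHom G n x) ⊤ trivial (le_preimage_top f ⊤)
  obtain ⟨V, hV, hxV, hVW, hSV⟩ := exists_isStandardSmoothOfRelativeDimension_le f g
    (isAffineOpen_top _) x ((nsmulHom G n) ⁻¹ᵁ U) hyU (le_preimage_top f _)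
  have : Nonempty V := ⟨⟨x, hxV⟩⟩
  exact ⟨⟨U, hU⟩, ⟨V, hV⟩, hxV, hVW, etale_appLE_nsmulHom G hc g n hn hU hV hVW hSU hSV⟩

/-- **`[n]` is étale**, in terms of the morphism `schemeNsmul` of the Prelude -/
theorem etale_schemeNsmul (f : A ⟶ Spec (CommRingCat.of R)) (G : RelativeGroupLaw R f)
    (hc : G.IsCommutative) (g : ℕ) [SmoothOfRelativeDimension g f] (n : ℕ) (hn : IsUnit (n : R)) :
    Etale (G.schemeNsmul n) :=
  etale_nsmulHom G hc g n hn

/-- **`[n]` is étale** over a field in which `n ≠ 0` -/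
theorem etale_schemeNsmul_of_field {K : Type u} [Field K] {A : Scheme.{u}}
    (f : A ⟶ Spec (CommRingCat.of K)) (G : RelativeGroupLaw K f) (hc : G.IsCommutative) (g : ℕ)
    [SmoothOfRelativeDimension g f] (n : ℕ) (hn : (n : K) ≠ 0) : Etale (G.schemeNsmul n) :=
  etale_schemeNsmul f G hc g n (isUnit_iff_ne_zero.mpr hn)

end Main

end Fermat.Agent.S26lib.NMul
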